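/-
GAMMA / KM-NOD (helper3, in helper9's design v2): **definitions** of the abstract nodal curve
(two components, arbitrary gluing algebra) and of its Riemann-Roch spaces.

`k` algebraically closed, `F₁ F₂` function fields over `k` (the two components), finitely many
"node places" `P₁ : σ₁ → Place k F₁`, `P₂ : σ₂ → Place k F₂` (injective) and an ARBITRARY subalgebra
`Δ ⊆ k^(σ₁ ⊕ σ₂)` (the gluing algebra; for ordinary nodes `Δ` = functions constant on the blocks).

* `s33nVal v f`  : the value of `f` at the place `v` (`0` if `f` has no value, i.e. a pole);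
* `S33nHasVal v f` : `f` has a value at `v` (`⇔ f ∈ 𝒪_v` when `k` is algebraically closed);
* `s33nEv N t`   : the values of `t = (a, b) : F₁ × F₂` at the node places;
* `s33nL N A₁ A₂`: the nodal Riemann-Roch space
  `{(a, b) | a ∈ L(A₁), b ∈ L(A₂), a, b regular at the node places, ev (a, b) ∈ Δ}`, a `k`-subspace of
  the product ring `F₁ × F₂`; one uses it for divisors with `N.Off A₁ A₂` (support off the nodes);
* `s33nSig₁ N`, `s33nSig₂ N` : the reduced divisors of the node places;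
* `s33nDelta N = |σ₁| + |σ₂| - dim Δ`, `s33nPa N = g₁ + g₂ + δ - 1` (the arithmetic genus).
-/
import Mathlib
import Fermat.Agent.Lib.Alpha.KM.Chain

set_option autoImplicit false
set_option linter.unusedSectionVars false

namespace Fermat.Agent.S33N

open Fermat.Agent.Curve Fermat.Agent.CurveP AlgebraicCurve PlaceAux RRAux Fermat.Agent.Alpha

/-! ### values at a place -/

section Val

variable {k F : Type*} [Field k] [Field F] [Algebra k F]

/-- `f` has a value at `v` -/
def S33nHasVal (v : Place k F) (f : F) : Prop := ∃ c : k, OrdGE v (f - algebraMap k F c) 1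

open Classical in
/-- the value of `f` at `v` (`0` if there is none) -/
noncomputable def s33nVal (v : Place k F) (f : F) : k :=
  if h : S33nHasVal v f then h.choose else 0

theorem s33nVal_spec {v : Place k F} {f : F} (h : S33nHasVal v f) :
    OrdGE v (f - algebraMap k F (s33nVal v f)) 1 := by
  rw [s33nVal, dif_pos h]
  exact h.choose_spec

theorem s33nVal_eq {v : Place k F} {f : F} {c : k} (hc : OrdGE v (f - algebraMap k F c) 1) :
    s33nVal v f = c :=
  const_unique_of_ordGE_one v (s33nVal_spec ⟨c, hc⟩) hc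

theorem S33nHasVal.mem {v : Place k F} {f : F} (h : S33nHasVal v f) :
    f ∈ v.toValuationSubring := by
  obtain ⟨c, hc⟩ := h
  have h1 : OrdGE v (f - algebraMap k F c) 0 := hc.mono v (by norm_num)
  have h2 := (ordGE_zero_iff_mem v).mp h1
  have h3 := v.toValuationSubring.add_mem _ _ h2 (algebraMap_mem v c)
  rwa [sub_add_cancel] at h3

theorem s33n_hasVal_of_mem [IsAlgClosed k] {x : F} (hx : IsFunctionFieldGen k F x)
    {v : Place k F} {f : F} (hf : f ∈ v.toValuationSubring) : S33nHasVal v f :=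
  exists_const_ordGE_one hx v hf

theorem s33n_hasVal_iff [IsAlgClosed k] {x : F} (hx : IsFunctionFieldGen k F x)
    {v : Place k F} {f : F} : S33nHasVal v f ↔ f ∈ v.toValuationSubring :=
  ⟨fun h => h.mem, s33n_hasVal_of_mem hx⟩

theorem s33n_hasVal_zero (v : Place k F) : S33nHasVal v (0 : F) :=
  ⟨0, by rw [map_zero, sub_zero]; exact ordGE_zero v 1⟩

theorem s33n_hasVal_algebraMap (v : Place k F) (c : k) : S33nHasVal v (algebraMap k F c) :=
  ⟨c, by rw [sub_self]; exact ordGE_zero v 1⟩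

theorem s33n_hasVal_one (v : Place k F) : S33nHasVal v (1 : F) := by
  have := s33n_hasVal_algebraMap v (1 : k)
  rwa [map_one] at this

theorem S33nHasVal.add {v : Place k F} {f g : F} (hf : S33nHasVal v f) (hg : S33nHasVal v g) :
    S33nHasVal v (f + g) := by
  obtain ⟨c, hc⟩ := hf
  obtain ⟨c', hc'⟩ := hg
  refine ⟨c + c', ?_⟩
  have := hc.add v hc'
  rwa [show f - algebraMap k F c + (g - algebraMap k F c') = f + g - algebraMap k F (c + c') by
    rw [map_add]; ring] at this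

theorem S33nHasVal.smul {v : Place k F} {f : F} (hf : S33nHasVal v f) (a : k) :
    S33nHasVal v (a • f) := by
  obtain ⟨c, hc⟩ := hf
  refine ⟨a * c, ?_⟩
  have := hc.smul v a
  rwa [show a • (f - algebraMap k F c) = a • f - algebraMap k F (a * c) by
    rw [smul_sub, map_mul, Algebra.smul_def a (algebraMap k F _)]] at this

theorem S33nHasVal.mul {v : Place k F} {f g : F} (hf : S33nHasVal v f) (hg : S33nHasVal v g) :
    S33nHasVal v (f * g) := by
  obtain ⟨c, hc⟩ := hf
  obtain ⟨c', hc'⟩ := hg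
  refine ⟨c * c', ?_⟩
  have hg0 : OrdGE v g 0 := (ordGE_zero_iff_mem v).mpr (S33nHasVal.mem ⟨c', hc'⟩)
  have hc0 : OrdGE v (algebraMap k F c) 0 := (ordGE_zero_iff_mem v).mpr (algebraMap_mem v c)
  have h1 := hc.mul v hg0
  have h2 := hc0.mul v hc'
  rw [add_zero] at h1
  rw [zero_add] at h2
  have := h1.add v h2
  rwa [show (f - algebraMap k F c) * g + algebraMap k F c * (g - algebraMap k F c') =
    f * g - algebraMap k F (c * c') by rw [map_mul]; ring] at this

theorem s33nVal_zero (v : Place k F) : s33nVal v (0 : F) = 0 :=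
  s33nVal_eq (by rw [map_zero, sub_zero]; exact ordGE_zero v 1)

theorem s33nVal_algebraMap (v : Place k F) (c : k) : s33nVal v (algebraMap k F c) = c :=
  s33nVal_eq (by rw [sub_self]; exact ordGE_zero v 1)

theorem s33nVal_one (v : Place k F) : s33nVal v (1 : F) = 1 := by
  have := s33nVal_algebraMap v (1 : k)
  rwa [map_one] at this

theorem s33nVal_add {v : Place k F} {f g : F} (hf : S33nHasVal v f) (hg : S33nHasVal v g) :
    s33nVal v (f + g) = s33nVal v f + s33nVal v g := by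
  apply s33nVal_eq
  have := (s33nVal_spec hf).add v (s33nVal_spec hg)
  rwa [show f - algebraMap k F (s33nVal v f) + (g - algebraMap k F (s33nVal v g)) =
    f + g - algebraMap k F (s33nVal v f + s33nVal v g) by rw [map_add]; ring] at this

theorem s33nVal_smul {v : Place k F} {f : F} (hf : S33nHasVal v f) (a : k) :
    s33nVal v (a • f) = a * s33nVal v f := by
  apply s33nVal_eq
  have := (s33nVal_spec hf).smul v a
  rwa [show a • (f - algebraMap k F (s33nVal v f)) = a • f - algebraMap k F (a * s33nVal v f) by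
    rw [smul_sub, map_mul, Algebra.smul_def a (algebraMap k F _)]] at this

theorem s33nVal_mul {v : Place k F} {f g : F} (hf : S33nHasVal v f) (hg : S33nHasVal v g) :
    s33nVal v (f * g) = s33nVal v f * s33nVal v g := by
  apply s33nVal_eq
  have hg0 : OrdGE v g 0 := (ordGE_zero_iff_mem v).mpr hg.mem
  have hc0 : OrdGE v (algebraMap k F (s33nVal v f)) 0 :=
    (ordGE_zero_iff_mem v).mpr (algebraMap_mem v _)
  have h1 := (s33nVal_spec hf).mul v hg0
  have h2 := hc0.mul v (s33nVal_spec hg)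
  rw [add_zero] at h1
  rw [zero_add] at h2
  have := h1.add v h2
  rwa [show (f - algebraMap k F (s33nVal v f)) * g +
      algebraMap k F (s33nVal v f) * (g - algebraMap k F (s33nVal v g)) =
    f * g - algebraMap k F (s33nVal v f * s33nVal v g) by rw [map_mul]; ring] at this

/-- the value vanishes iff the function vanishes at the place -/
theorem s33nVal_eq_zero_iff {v : Place k F} {f : F} (hf : S33nHasVal v f) :
    s33nVal v f = 0 ↔ OrdGE v f 1 := by
  constructor
  · intro h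
    have := s33nVal_spec hf
    rwa [h, map_zero, sub_zero] at this
  · intro h
    apply s33nVal_eq
    rwa [map_zero, sub_zero]

theorem s33n_hasVal_of_ordGE_one {v : Place k F} {f : F} (h : OrdGE v f 1) : S33nHasVal v f :=
  ⟨0, by rwa [map_zero, sub_zero]⟩

end Val

/-! ### the nodal datum -/

/-- an abstract nodal curve with two components: node places on the two components and a gluing
algebra -/
structure S33nDatum (k F₁ F₂ σ₁ σ₂ : Type*) [Field k] [Field F₁] [Field F₂] [Algebra k F₁]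
    [Algebra k F₂] where
  /-- the node places on the first component -/
  P₁ : σ₁ → Place k F₁
  /-- the node places on the second component -/
  P₂ : σ₂ → Place k F₂
  inj₁ : Function.Injective P₁
  inj₂ : Function.Injective P₂
  /-- the gluing algebra -/
  Δ : Subalgebra k (σ₁ ⊕ σ₂ → k)

section Datum

variable {k F₁ F₂ σ₁ σ₂ : Type*} [Field k] [Field F₁] [Field F₂] [Algebra k F₁] [Algebra k F₂]
  [IsAlgClosed k] (N : S33nDatum k F₁ F₂ σ₁ σ₂)

/-- the values at the node places -/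
noncomputable def s33nEv (t : F₁ × F₂) : σ₁ ⊕ σ₂ → k :=
  Sum.elim (fun s => s33nVal (N.P₁ s) t.1) (fun s => s33nVal (N.P₂ s) t.2)

@[simp] theorem s33nEv_inl (t : F₁ × F₂) (s : σ₁) : s33nEv N t (Sum.inl s) = s33nVal (N.P₁ s) t.1 :=
  rfl

@[simp] theorem s33nEv_inr (t : F₁ × F₂) (s : σ₂) : s33nEv N t (Sum.inr s) = s33nVal (N.P₂ s) t.2 :=
  rfl

/-- regular at all node places -/
def S33nReg (t : F₁ × F₂) : Prop :=
  (∀ s, S33nHasVal (N.P₁ s) t.1) ∧ ∀ s, S33nHasVal (N.P₂ s) t.2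

theorem S33nReg.add {t u : F₁ × F₂} (ht : S33nReg N t) (hu : S33nReg N u) : S33nReg N (t + u) :=
  ⟨fun s => (ht.1 s).add (hu.1 s), fun s => (ht.2 s).add (hu.2 s)⟩

theorem S33nReg.smul {t : F₁ × F₂} (ht : S33nReg N t) (a : k) : S33nReg N (a • t) :=
  ⟨fun s => (ht.1 s).smul a, fun s => (ht.2 s).smul a⟩

theorem S33nReg.mul {t u : F₁ × F₂} (ht : S33nReg N t) (hu : S33nReg N u) : S33nReg N (t * u) :=
  ⟨fun s => (ht.1 s).mul (hu.1 s), fun s => (ht.2 s).mul (hu.2 s)⟩

theorem s33n_reg_zero : S33nReg N (0 : F₁ × F₂) :=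
  ⟨fun _ => s33n_hasVal_zero _, fun _ => s33n_hasVal_zero _⟩

theorem s33n_reg_one : S33nReg N (1 : F₁ × F₂) :=
  ⟨fun _ => s33n_hasVal_one _, fun _ => s33n_hasVal_one _⟩

theorem s33nEv_zero : s33nEv N (0 : F₁ × F₂) = 0 := by
  funext s
  rcases s with s | s
  · exact s33nVal_zero _
  · exact s33nVal_zero _

theorem s33nEv_one : s33nEv N (1 : F₁ × F₂) = 1 := by
  funext s
  rcases s with s | s
  · exact s33nVal_one _
  · exact s33nVal_one _

theorem s33nEv_add {t u : F₁ × F₂} (ht : S33nReg N t) (hu : S33nReg N u) :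
    s33nEv N (t + u) = s33nEv N t + s33nEv N u := by
  funext s
  rcases s with s | s
  · exact s33nVal_add (ht.1 s) (hu.1 s)
  · exact s33nVal_add (ht.2 s) (hu.2 s)

theorem s33nEv_smul {t : F₁ × F₂} (ht : S33nReg N t) (a : k) :
    s33nEv N (a • t) = a • s33nEv N t := by
  funext s
  rcases s with s | s
  · exact s33nVal_smul (ht.1 s) a
  · exact s33nVal_smul (ht.2 s) a

theorem s33nEv_mul {t u : F₁ × F₂} (ht : S33nReg N t) (hu : S33nReg N u) :
    s33nEv N (t * u) = s33nEv N t * s33nEv N u := by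
  funext s
  rcases s with s | s
  · exact s33nVal_mul (ht.1 s) (hu.1 s)
  · exact s33nVal_mul (ht.2 s) (hu.2 s)

/-- the divisors have support off the node places -/
def S33nDatum.Off (A₁ : Divisor k F₁) (A₂ : Divisor k F₂) : Prop :=
  (∀ s, A₁ (N.P₁ s) = 0) ∧ ∀ s, A₂ (N.P₂ s) = 0

theorem S33nDatum.Off.add {A₁ B₁ : Divisor k F₁} {A₂ B₂ : Divisor k F₂} (hA : N.Off A₁ A₂)
    (hB : N.Off B₁ B₂) : N.Off (A₁ + B₁) (A₂ + B₂) :=
  ⟨fun s => by rw [Finsupp.add_apply, hA.1 s, hB.1 s, add_zero],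
    fun s => by rw [Finsupp.add_apply, hA.2 s, hB.2 s, add_zero]⟩

theorem S33nDatum.Off.sub {A₁ B₁ : Divisor k F₁} {A₂ B₂ : Divisor k F₂} (hA : N.Off A₁ A₂)
    (hB : N.Off B₁ B₂) : N.Off (A₁ - B₁) (A₂ - B₂) :=
  ⟨fun s => by rw [Finsupp.sub_apply, hA.1 s, hB.1 s, sub_zero],
    fun s => by rw [Finsupp.sub_apply, hA.2 s, hB.2 s, sub_zero]⟩

theorem S33nDatum.off_zero : N.Off 0 0 := ⟨fun _ => rfl, fun _ => rfl⟩

/-- **the nodal Riemann-Roch space** -/
noncomputable def s33nL (A₁ : Divisor k F₁) (A₂ : Divisor k F₂) : Submodule k (F₁ × F₂) where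
  carrier := {t | t.1 ∈ riemannRochSpace A₁ ∧ t.2 ∈ riemannRochSpace A₂ ∧ S33nReg N t ∧
    s33nEv N t ∈ N.Δ}
  add_mem' := by
    rintro t u ⟨ht1, ht2, htr, hte⟩ ⟨hu1, hu2, hur, hue⟩
    refine ⟨Submodule.add_mem _ ht1 hu1, Submodule.add_mem _ ht2 hu2, htr.add N hur, ?_⟩
    rw [s33nEv_add N htr hur]
    exact N.Δ.add_mem hte hue
  zero_mem' := by
    refine ⟨Submodule.zero_mem _, Submodule.zero_mem _, s33n_reg_zero N, ?_⟩
    rw [s33nEv_zero]
    exact N.Δ.zero_mem
  smul_mem' := by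
    rintro a t ⟨ht1, ht2, htr, hte⟩
    refine ⟨Submodule.smul_mem _ a ht1, Submodule.smul_mem _ a ht2, htr.smul N a, ?_⟩
    rw [s33nEv_smul N htr]
    exact N.Δ.smul_mem hte a

theorem mem_s33nL {A₁ : Divisor k F₁} {A₂ : Divisor k F₂} {t : F₁ × F₂} :
    t ∈ s33nL N A₁ A₂ ↔ t.1 ∈ riemannRochSpace A₁ ∧ t.2 ∈ riemannRochSpace A₂ ∧ S33nReg N t ∧
      s33nEv N t ∈ N.Δ := Iff.rfl

/-- sections of divisors off the nodes are regular at the nodes -/
theorem s33n_reg_of_off {x₁ : F₁} {x₂ : F₂} (hx₁ : IsFunctionFieldGen k F₁ x₁)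
    (hx₂ : IsFunctionFieldGen k F₂ x₂) {A₁ : Divisor k F₁} {A₂ : Divisor k F₂}
    (hA : N.Off A₁ A₂) {t : F₁ × F₂} (h1 : t.1 ∈ riemannRochSpace A₁)
    (h2 : t.2 ∈ riemannRochSpace A₂) : S33nReg N t := by
  constructor
  · intro s
    apply s33n_hasVal_of_mem hx₁
    rw [PlaceAux.mem_iff]
    have := mem_riemannRochSpace_iff.mp h1 (N.P₁ s)
    rw [hA.1 s, neg_zero] at this
    exact this
  · intro s
    apply s33n_hasVal_of_mem hx₂
    rw [PlaceAux.mem_iff]
    have := mem_riemannRochSpace_iff.mp h2 (N.P₂ s)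
    rw [hA.2 s, neg_zero] at this
    exact this

theorem mem_s33nL_of_off {x₁ : F₁} {x₂ : F₂} (hx₁ : IsFunctionFieldGen k F₁ x₁)
    (hx₂ : IsFunctionFieldGen k F₂ x₂) {A₁ : Divisor k F₁} {A₂ : Divisor k F₂}
    (hA : N.Off A₁ A₂) {t : F₁ × F₂} :
    t ∈ s33nL N A₁ A₂ ↔ t.1 ∈ riemannRochSpace A₁ ∧ t.2 ∈ riemannRochSpace A₂ ∧
      s33nEv N t ∈ N.Δ := by
  rw [mem_s33nL]
  constructor
  · rintro ⟨h1, h2, -, h3⟩
    exact ⟨h1, h2, h3⟩
  · rintro ⟨h1, h2, h3⟩
    exact ⟨h1, h2, s33n_reg_of_off N hx₁ hx₂ hA h1 h2, h3⟩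

theorem s33nL_mono {A₁ B₁ : Divisor k F₁} {A₂ B₂ : Divisor k F₂} (h1 : A₁ ≤ B₁) (h2 : A₂ ≤ B₂) :
    s33nL N A₁ A₂ ≤ s33nL N B₁ B₂ := by
  rintro t ⟨ht1, ht2, htr, hte⟩
  exact ⟨riemannRochSpace_mono h1 ht1, riemannRochSpace_mono h2 ht2, htr, hte⟩

/-- products of sections -/
theorem s33n_mul_mem {A₁ B₁ : Divisor k F₁} {A₂ B₂ : Divisor k F₂} {t u : F₁ × F₂}
    (ht : t ∈ s33nL N A₁ A₂) (hu : u ∈ s33nL N B₁ B₂) : t * u ∈ s33nL N (A₁ + B₁) (A₂ + B₂) := by
  obtain ⟨ht1, ht2, htr, hte⟩ := ht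
  obtain ⟨hu1, hu2, hur, hue⟩ := hu
  refine ⟨mul_mem_riemannRochSpace ht1 hu1, mul_mem_riemannRochSpace ht2 hu2, htr.mul N hur, ?_⟩
  rw [s33nEv_mul N htr hur]
  exact N.Δ.mul_mem hte hue

theorem s33n_mul_le (A₁ B₁ : Divisor k F₁) (A₂ B₂ : Divisor k F₂) :
    s33nL N A₁ A₂ * s33nL N B₁ B₂ ≤ s33nL N (A₁ + B₁) (A₂ + B₂) :=
  Submodule.mul_le.mpr fun _ ht _ hu => s33n_mul_mem N ht hu

/-- the constants -/
theorem s33n_one_mem : (1 : F₁ × F₂) ∈ s33nL N 0 0 := by
  refine ⟨?_, ?_, s33n_reg_one N, ?_⟩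
  · rw [mem_riemannRochSpace_iff]
    intro v
    right
    rw [Prod.fst_one, v.ord_one, Finsupp.zero_apply, neg_zero]
  · rw [mem_riemannRochSpace_iff]
    intro v
    right
    rw [Prod.snd_one, v.ord_one, Finsupp.zero_apply, neg_zero]
  · rw [s33nEv_one]
    exact N.Δ.one_mem

variable [Fintype σ₁] [Fintype σ₂]

/-- the reduced divisor of the node places on the first component -/
noncomputable def s33nSig₁ : Divisor k F₁ := ∑ s, Finsupp.single (N.P₁ s) 1

/-- the reduced divisor of the node places on the second component -/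
noncomputable def s33nSig₂ : Divisor k F₂ := ∑ s, Finsupp.single (N.P₂ s) 1

theorem s33nSig₁_apply (s : σ₁) : s33nSig₁ N (N.P₁ s) = 1 := by
  classical
  rw [s33nSig₁, Finsupp.finsetSum_apply, Finset.sum_eq_single s]
  · exact Finsupp.single_eq_same
  · intro s' _ hs'
    exact Finsupp.single_eq_of_ne (fun h => hs' (N.inj₁ h).symm)
  · intro h
    exact absurd (Finset.mem_univ s) h

theorem s33nSig₂_apply (s : σ₂) : s33nSig₂ N (N.P₂ s) = 1 := by
  classical
  rw [s33nSig₂, Finsupp.finsetSum_apply, Finset.sum_eq_single s]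
  · exact Finsupp.single_eq_same
  · intro s' _ hs'
    exact Finsupp.single_eq_of_ne (fun h => hs' (N.inj₂ h).symm)
  · intro h
    exact absurd (Finset.mem_univ s) h

theorem s33nSig₁_apply_of_notMem {v : Place k F₁} (hv : v ∉ Set.range N.P₁) :
    s33nSig₁ N v = 0 := by
  classical
  rw [s33nSig₁, Finsupp.finsetSum_apply]
  refine Finset.sum_eq_zero fun s _ => ?_
  exact Finsupp.single_eq_of_ne (fun h => hv ⟨s, h.symm⟩)

theorem s33nSig₂_apply_of_notMem {v : Place k F₂} (hv : v ∉ Set.range N.P₂) :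
    s33nSig₂ N v = 0 := by
  classical
  rw [s33nSig₂, Finsupp.finsetSum_apply]
  refine Finset.sum_eq_zero fun s _ => ?_
  exact Finsupp.single_eq_of_ne (fun h => hv ⟨s, h.symm⟩)

theorem s33nSig₁_nonneg : 0 ≤ s33nSig₁ N := by
  intro v
  by_cases hv : v ∈ Set.range N.P₁
  · obtain ⟨s, rfl⟩ := hv
    rw [s33nSig₁_apply, Finsupp.zero_apply]
    norm_num
  · rw [s33nSig₁_apply_of_notMem N hv, Finsupp.zero_apply]

theorem s33nSig₂_nonneg : 0 ≤ s33nSig₂ N := by
  intro v
  by_cases hv : v ∈ Set.range N.P₂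
  · obtain ⟨s, rfl⟩ := hv
    rw [s33nSig₂_apply, Finsupp.zero_apply]
    norm_num
  · rw [s33nSig₂_apply_of_notMem N hv, Finsupp.zero_apply]

/-- the number of conditions imposed by the gluing -/
noncomputable def s33nDelta : ℤ :=
  (Fintype.card σ₁ : ℤ) + Fintype.card σ₂ - Module.finrank k ↥N.Δ

/-- the arithmetic genus -/
noncomputable def s33nPa : ℤ := (genusR k F₁ : ℤ) + genusR k F₂ + s33nDelta N - 1

end Datum

end Fermat.Agent.S33N
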