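/-
GAMMA / KM-NOD (helper3), part (N1): **dimension theory of the nodal Riemann-Roch spaces**.

* one component: the evaluation `L(A) → k^σ` at finitely many places off the support of `A` has kernel
  `L(A - Σ)` and is surjective for `deg A ≥ 2g - 1 + |σ|`;
* `s33n_exists_ev`   : prescribed values at the node places (`deg Aᵢ ≥ 2gᵢ - 1 + |σᵢ|`);
* `s33n_finrank`     : (N1) `dim L^nod(A) = deg A₁ + deg A₂ + 1 - p_a` in that range;
* `s33n_le_finrank`  : Riemann's inequality `dim L^nod(A) ≥ deg A₁ + deg A₂ + 1 - p_a` for all `A`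
  off the nodes.
-/
import Mathlib
import Fermat.Agent.Lib.S33.Nod.Defs

set_option autoImplicit false
set_option linter.unusedSectionVars false

namespace Fermat.Agent.S33N

open Fermat.Agent.Curve Fermat.Agent.CurveP AlgebraicCurve PlaceAux RRAux Fermat.Agent.Alpha

/-! ### one component -/

section One

variable {k F σ : Type*} [Field k] [IsAlgClosed k] [Field F] [Algebra k F] [Fintype σ]
  {x : F} (hx : IsFunctionFieldGen k F x)
  [Algebra.IsSeparable (IntermediateField.adjoin k {x}) F]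
  (P : σ → Place k F) (hP : Function.Injective P)

/-- the reduced divisor of a finite family of places -/
noncomputable def s33nSigOf : Divisor k F := ∑ s, Finsupp.single (P s) 1

include hP in
theorem s33nSigOf_apply (s : σ) : s33nSigOf P (P s) = 1 := by
  classical
  rw [s33nSigOf, Finsupp.finsetSum_apply, Finset.sum_eq_single s]
  · exact Finsupp.single_eq_same
  · intro s' _ hs'
    exact Finsupp.single_eq_of_ne (fun h => hs' (hP h).symm)
  · intro h
    exact absurd (Finset.mem_univ s) h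

theorem s33nSigOf_apply_of_notMem {v : Place k F} (hv : v ∉ Set.range P) :
    s33nSigOf P v = 0 := by
  classical
  rw [s33nSigOf, Finsupp.finsetSum_apply]
  refine Finset.sum_eq_zero fun s _ => ?_
  exact Finsupp.single_eq_of_ne (fun h => hv ⟨s, h.symm⟩)

include hP in
theorem s33nSigOf_nonneg : 0 ≤ s33nSigOf P := by
  intro v
  by_cases hv : v ∈ Set.range P
  · obtain ⟨s, rfl⟩ := hv
    rw [s33nSigOf_apply P hP, Finsupp.zero_apply]
    norm_num
  · rw [s33nSigOf_apply_of_notMem P hv, Finsupp.zero_apply]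

include hx in
theorem s33n_degree_sigOf : Divisor.degree (s33nSigOf P) = (Fintype.card σ : ℤ) := by
  rw [s33nSigOf, map_sum]
  simp only [alpk_degree_single hx]
  rw [Finset.sum_const, Finset.card_univ]
  simp

include hP in
/-- membership in `L(A - m Σ)` for sections of `L(A)`, `A` off `Σ` -/
theorem s33n_mem_sub_sig_iff {A : Divisor k F} (hA : ∀ s, A (P s) = 0) {f : F}
    (hf : f ∈ riemannRochSpace A) (m : ℕ) :
    f ∈ riemannRochSpace (A - m • s33nSigOf P) ↔ ∀ s, OrdGE (P s) f m := by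
  rw [mem_riemannRochSpace_iff_ordGE]
  constructor
  · intro h s
    have := h (P s)
    rwa [Finsupp.sub_apply, Finsupp.smul_apply, hA s, s33nSigOf_apply P hP, zero_sub, neg_neg,
      nsmul_eq_mul, mul_one] at this
  · intro h v
    by_cases hv : v ∈ Set.range P
    · obtain ⟨s, rfl⟩ := hv
      rw [Finsupp.sub_apply, Finsupp.smul_apply, hA s, s33nSigOf_apply P hP, zero_sub, neg_neg,
        nsmul_eq_mul, mul_one]
      exact h s
    · rw [Finsupp.sub_apply, Finsupp.smul_apply, s33nSigOf_apply_of_notMem P hv, smul_zero,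
        sub_zero]
      exact mem_riemannRochSpace_iff_ordGE.mp hf v

include hP in
theorem s33n_sub_sig_le (A : Divisor k F) (m : ℕ) :
    riemannRochSpace (A - m • s33nSigOf P) ≤ riemannRochSpace A := by
  apply riemannRochSpace_mono
  have h0 : 0 ≤ m • s33nSigOf P := smul_nonneg (Nat.zero_le m) (s33nSigOf_nonneg P hP)
  exact sub_le_self _ h0

include hx in
/-- sections of `L(A)`, `A` off `Σ`, have values at `Σ` -/
theorem s33n_hasVal_of_mem_space {A : Divisor k F} (hA : ∀ s, A (P s) = 0) {f : F}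
    (hf : f ∈ riemannRochSpace A) (s : σ) : S33nHasVal (P s) f := by
  apply s33n_hasVal_of_mem hx
  rw [PlaceAux.mem_iff]
  have := mem_riemannRochSpace_iff.mp hf (P s)
  rwa [hA s, neg_zero] at this

/-- the evaluation map on `L(A)` -/
noncomputable def s33nEvL {A : Divisor k F} (hA : ∀ s, A (P s) = 0) :
    ↥(riemannRochSpace A) →ₗ[k] (σ → k) where
  toFun f s := s33nVal (P s) (f : F)
  map_add' f g := by
    funext s
    exact s33nVal_add (s33n_hasVal_of_mem_space hx P hA f.2 s)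
      (s33n_hasVal_of_mem_space hx P hA g.2 s)
  map_smul' a f := by
    funext s
    exact s33nVal_smul (s33n_hasVal_of_mem_space hx P hA f.2 s) a

theorem s33nEvL_apply {A : Divisor k F} (hA : ∀ s, A (P s) = 0) (f : ↥(riemannRochSpace A))
    (s : σ) : s33nEvL hx P hA f s = s33nVal (P s) (f : F) := rfl

include hP in
/-- the kernel of the evaluation is `L(A - Σ)` -/
theorem s33n_ker_evL {A : Divisor k F} (hA : ∀ s, A (P s) = 0) :
    LinearMap.ker (s33nEvL hx P hA) =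
      (riemannRochSpace (A - s33nSigOf P)).comap (riemannRochSpace A).subtype := by
  ext f
  rw [LinearMap.mem_ker, Submodule.mem_comap, Submodule.subtype_apply]
  have h1 := s33n_mem_sub_sig_iff P hP hA f.2 1
  rw [one_smul] at h1
  rw [h1]
  constructor
  · intro h s
    have := congrFun h s
    rw [s33nEvL_apply, Pi.zero_apply] at this
    exact_mod_cast (s33nVal_eq_zero_iff (s33n_hasVal_of_mem_space hx P hA f.2 s)).mp this
  · intro h
    funext s
    rw [s33nEvL_apply, Pi.zero_apply]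
    exact (s33nVal_eq_zero_iff (s33n_hasVal_of_mem_space hx P hA f.2 s)).mpr
      (by exact_mod_cast h s)

include hP in
/-- **the evaluation is surjective** for `deg A ≥ 2g - 1 + |σ|` -/
theorem s33n_evL_surjective {A : Divisor k F} (hA : ∀ s, A (P s) = 0)
    (hdeg : 2 * (genusR k F : ℤ) - 1 + Fintype.card σ ≤ Divisor.degree A) :
    Function.Surjective (s33nEvL hx P hA) := by
  have := finiteDimensional_riemannRochSpace hx A
  rw [← LinearMap.range_eq_top]
  apply Submodule.eq_top_of_finrank_eq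
  have h1 := LinearMap.finrank_range_add_finrank_ker (s33nEvL hx P hA)
  have h2 : Module.finrank k ↥(LinearMap.ker (s33nEvL hx P hA)) = ell (A - s33nSigOf P) := by
    rw [s33n_ker_evL hx P hP hA]
    have hle : riemannRochSpace (A - s33nSigOf P) ≤ riemannRochSpace A := by
      have := s33n_sub_sig_le P hP A 1
      rwa [one_smul] at this
    exact (Submodule.comapSubtypeEquivOfLe hle).finrank_eq
  have h3 : (ell (A - s33nSigOf P) : ℤ) = ell A - Fintype.card σ := by
    rw [alpk_ell_sub hx (s33nSigOf_nonneg P hP) (by rw [s33n_degree_sigOf hx]; exact hdeg),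
      s33n_degree_sigOf hx]
  have h4 : Module.finrank k ↥(riemannRochSpace A) = ell A := rfl
  rw [Module.finrank_pi]
  have : (Module.finrank k ↥(LinearMap.range (s33nEvL hx P hA)) : ℤ) = Fintype.card σ := by
    have h1' : (Module.finrank k ↥(LinearMap.range (s33nEvL hx P hA)) : ℤ) +
        Module.finrank k ↥(LinearMap.ker (s33nEvL hx P hA)) =
        Module.finrank k ↥(riemannRochSpace A) := by exact_mod_cast h1
    rw [h2, h3, h4] at h1'
    omega
  exact_mod_cast this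

include hx hP in
/-- prescribed values at `Σ` -/
theorem s33n_exists_val {A : Divisor k F} (hA : ∀ s, A (P s) = 0)
    (hdeg : 2 * (genusR k F : ℤ) - 1 + Fintype.card σ ≤ Divisor.degree A) (c : σ → k) :
    ∃ f ∈ riemannRochSpace A, ∀ s, s33nVal (P s) f = c s := by
  obtain ⟨f, hf⟩ := s33n_evL_surjective hx P hP hA hdeg c
  exact ⟨f, f.2, fun s => congrFun hf s⟩

end One

/-! ### linear algebra: the preimage of a subspace -/

section LinAlg

variable {k M V : Type*} [Field k] [AddCommGroup M] [Module k M] [AddCommGroup V] [Module k V]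
  [FiniteDimensional k M] [FiniteDimensional k V]

/-- the preimage of a subspace has codimension at most the codimension of the subspace -/
theorem s33n_finrank_comap_ge (Ψ : M →ₗ[k] V) (W : Submodule k V) :
    Module.finrank k M + Module.finrank k ↥W ≤
      Module.finrank k ↥(W.comap Ψ) + Module.finrank k V := by
  have h1 := LinearMap.finrank_range_add_finrank_ker (W.mkQ.comp Ψ)
  have h2 : LinearMap.ker (W.mkQ.comp Ψ) = W.comap Ψ := by
    rw [LinearMap.ker_comp, Submodule.ker_mkQ]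
  have h3 : Module.finrank k ↥(LinearMap.range (W.mkQ.comp Ψ)) ≤ Module.finrank k (V ⧸ W) :=
    Submodule.finrank_le _
  have h4 := Submodule.finrank_quotient_add_finrank W
  rw [h2] at h1
  omega

/-- ... with equality if the map is surjective -/
theorem s33n_finrank_comap_eq (Ψ : M →ₗ[k] V) (hΨ : Function.Surjective Ψ) (W : Submodule k V) :
    Module.finrank k ↥(W.comap Ψ) + Module.finrank k V =
      Module.finrank k M + Module.finrank k ↥W := by
  have h1 := LinearMap.finrank_range_add_finrank_ker (W.mkQ.comp Ψ)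
  have h2 : LinearMap.ker (W.mkQ.comp Ψ) = W.comap Ψ := by
    rw [LinearMap.ker_comp, Submodule.ker_mkQ]
  have h3 : LinearMap.range (W.mkQ.comp Ψ) = ⊤ := by
    rw [LinearMap.range_eq_top]
    exact (Submodule.mkQ_surjective W).comp hΨ
  have h4 := Submodule.finrank_quotient_add_finrank W
  rw [h2, h3, finrank_top] at h1
  omega

end LinAlg

/-! ### two components -/

section Two

variable {k F₁ F₂ σ₁ σ₂ : Type*} [Field k] [IsAlgClosed k] [Field F₁] [Field F₂] [Algebra k F₁]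
  [Algebra k F₂] [Fintype σ₁] [Fintype σ₂]
  {x₁ : F₁} {x₂ : F₂} (hx₁ : IsFunctionFieldGen k F₁ x₁) (hx₂ : IsFunctionFieldGen k F₂ x₂)
  [Algebra.IsSeparable (IntermediateField.adjoin k {x₁}) F₁]
  [Algebra.IsSeparable (IntermediateField.adjoin k {x₂}) F₂]
  (N : S33nDatum k F₁ F₂ σ₁ σ₂)

theorem s33nSig₁_eq : s33nSig₁ N = s33nSigOf N.P₁ := rfl

theorem s33nSig₂_eq : s33nSig₂ N = s33nSigOf N.P₂ := rfl

include hx₁ in
theorem s33n_degree_sig₁ : Divisor.degree (s33nSig₁ N) = (Fintype.card σ₁ : ℤ) :=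
  s33n_degree_sigOf hx₁ N.P₁

include hx₂ in
theorem s33n_degree_sig₂ : Divisor.degree (s33nSig₂ N) = (Fintype.card σ₂ : ℤ) :=
  s33n_degree_sigOf hx₂ N.P₂

/-- the evaluation map on `L(A₁) × L(A₂)` -/
noncomputable def s33nPsi {A₁ : Divisor k F₁} {A₂ : Divisor k F₂} (hA : N.Off A₁ A₂) :
    (↥(riemannRochSpace A₁) × ↥(riemannRochSpace A₂)) →ₗ[k] (σ₁ ⊕ σ₂ → k) :=
  (LinearEquiv.sumArrowLequivProdArrow σ₁ σ₂ k k).symm.toLinearMap.comp
    (LinearMap.prodMap (s33nEvL hx₁ N.P₁ hA.1) (s33nEvL hx₂ N.P₂ hA.2))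

theorem s33nPsi_apply {A₁ : Divisor k F₁} {A₂ : Divisor k F₂} (hA : N.Off A₁ A₂)
    (t : ↥(riemannRochSpace A₁) × ↥(riemannRochSpace A₂)) :
    s33nPsi hx₁ hx₂ N hA t = s33nEv N ((t.1 : F₁), (t.2 : F₂)) := by
  funext s
  rcases s with s | s
  · rfl
  · rfl

/-- the evaluation is surjective in the good range -/
theorem s33nPsi_surjective {A₁ : Divisor k F₁} {A₂ : Divisor k F₂} (hA : N.Off A₁ A₂)
    (h₁ : 2 * (genusR k F₁ : ℤ) - 1 + Fintype.card σ₁ ≤ Divisor.degree A₁)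
    (h₂ : 2 * (genusR k F₂ : ℤ) - 1 + Fintype.card σ₂ ≤ Divisor.degree A₂) :
    Function.Surjective (s33nPsi hx₁ hx₂ N hA) := by
  intro c
  obtain ⟨a, ha⟩ := s33n_evL_surjective hx₁ N.P₁ N.inj₁ hA.1 h₁ (fun s => c (Sum.inl s))
  obtain ⟨b, hb⟩ := s33n_evL_surjective hx₂ N.P₂ N.inj₂ hA.2 h₂ (fun s => c (Sum.inr s))
  refine ⟨(a, b), ?_⟩
  funext s
  rcases s with s | s
  · exact congrFun ha s
  · exact congrFun hb s

include hx₁ hx₂ in
/-- **prescribed values at the node places** -/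
theorem s33n_exists_ev {A₁ : Divisor k F₁} {A₂ : Divisor k F₂} (hA : N.Off A₁ A₂)
    (h₁ : 2 * (genusR k F₁ : ℤ) - 1 + Fintype.card σ₁ ≤ Divisor.degree A₁)
    (h₂ : 2 * (genusR k F₂ : ℤ) - 1 + Fintype.card σ₂ ≤ Divisor.degree A₂)
    (c : σ₁ ⊕ σ₂ → k) :
    ∃ t : F₁ × F₂, t.1 ∈ riemannRochSpace A₁ ∧ t.2 ∈ riemannRochSpace A₂ ∧ s33nEv N t = c := by
  obtain ⟨t, ht⟩ := s33nPsi_surjective hx₁ hx₂ N hA h₁ h₂ c
  refine ⟨((t.1 : F₁), (t.2 : F₂)), t.1.2, t.2.2, ?_⟩
  rw [← s33nPsi_apply hx₁ hx₂ N hA t, ht]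

include hx₁ hx₂ in
theorem s33n_exists_mem_ev {A₁ : Divisor k F₁} {A₂ : Divisor k F₂} (hA : N.Off A₁ A₂)
    (h₁ : 2 * (genusR k F₁ : ℤ) - 1 + Fintype.card σ₁ ≤ Divisor.degree A₁)
    (h₂ : 2 * (genusR k F₂ : ℤ) - 1 + Fintype.card σ₂ ≤ Divisor.degree A₂)
    {c : σ₁ ⊕ σ₂ → k} (hc : c ∈ N.Δ) :
    ∃ t ∈ s33nL N A₁ A₂, s33nEv N t = c := by
  obtain ⟨t, ht1, ht2, hte⟩ := s33n_exists_ev hx₁ hx₂ N hA h₁ h₂ c
  refine ⟨t, (mem_s33nL_of_off N hx₁ hx₂ hA).mpr ⟨ht1, ht2, ?_⟩, hte⟩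
  rw [hte]
  exact hc

/-- `L^nod(A)` as the preimage of the gluing algebra -/
noncomputable def s33nLEquiv {A₁ : Divisor k F₁} {A₂ : Divisor k F₂} (hA : N.Off A₁ A₂) :
    ↥(s33nL N A₁ A₂) ≃ₗ[k]
      ↥((Subalgebra.toSubmodule N.Δ).comap (s33nPsi hx₁ hx₂ N hA)) where
  toFun t := ⟨(⟨t.1.1, t.2.1⟩, ⟨t.1.2, t.2.2.1⟩), by
    rw [Submodule.mem_comap, s33nPsi_apply]
    exact t.2.2.2.2⟩
  invFun u := ⟨((u.1.1 : F₁), (u.1.2 : F₂)), by
    rw [mem_s33nL_of_off N hx₁ hx₂ hA]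
    refine ⟨u.1.1.2, u.1.2.2, ?_⟩
    have := u.2
    rw [Submodule.mem_comap, s33nPsi_apply] at this
    exact this⟩
  map_add' _ _ := rfl
  map_smul' _ _ := rfl
  left_inv _ := rfl
  right_inv _ := rfl

include hx₁ hx₂ in
theorem s33n_finiteDimensional (A₁ : Divisor k F₁) (A₂ : Divisor k F₂) :
    FiniteDimensional k ↥(s33nL N A₁ A₂) := by
  have := finiteDimensional_riemannRochSpace hx₁ A₁
  have := finiteDimensional_riemannRochSpace hx₂ A₂
  let φ : ↥(s33nL N A₁ A₂) →ₗ[k] (↥(riemannRochSpace A₁) × ↥(riemannRochSpace A₂)) :=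
    { toFun := fun t => (⟨t.1.1, t.2.1⟩, ⟨t.1.2, t.2.2.1⟩)
      map_add' := fun _ _ => rfl
      map_smul' := fun _ _ => rfl }
  refine Module.Finite.of_injective φ ?_
  intro t u h
  apply Subtype.ext
  have h1 := congrArg (fun p => (p.1 : F₁)) h
  have h2 := congrArg (fun p => (p.2 : F₂)) h
  exact Prod.ext h1 h2

include hx₁ hx₂ in
/-- **Riemann's inequality** for the nodal curve -/
theorem s33n_le_finrank {A₁ : Divisor k F₁} {A₂ : Divisor k F₂} (hA : N.Off A₁ A₂) :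
    Divisor.degree A₁ + Divisor.degree A₂ + 1 - s33nPa N ≤
      (Module.finrank k ↥(s33nL N A₁ A₂) : ℤ) := by
  have := finiteDimensional_riemannRochSpace hx₁ A₁
  have := finiteDimensional_riemannRochSpace hx₂ A₂
  have h1 := s33n_finrank_comap_ge (s33nPsi hx₁ hx₂ N hA) (Subalgebra.toSubmodule N.Δ)
  rw [← (s33nLEquiv hx₁ hx₂ N hA).finrank_eq, Module.finrank_prod, Module.finrank_pi,
    Fintype.card_sum] at h1
  have h2 := le_ell hx₁ A₁
  have h3 := le_ell hx₂ A₂
  have h4 : Module.finrank k ↥(riemannRochSpace A₁) = ell A₁ := rfl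
  have h5 : Module.finrank k ↥(riemannRochSpace A₂) = ell A₂ := rfl
  have h6 : Module.finrank k ↥(Subalgebra.toSubmodule N.Δ) = Module.finrank k ↥N.Δ := rfl
  rw [s33nPa, s33nDelta]
  rw [h4, h5, h6] at h1
  have h1' : (ell A₁ : ℤ) + ell A₂ + Module.finrank k ↥N.Δ ≤
      Module.finrank k ↥(s33nL N A₁ A₂) + ((Fintype.card σ₁ : ℤ) + Fintype.card σ₂) := by
    exact_mod_cast h1
  omega

include hx₁ hx₂ in
/-- **(N1)**: the dimension of `L^nod(A)` in the good range -/
theorem s33n_finrank {A₁ : Divisor k F₁} {A₂ : Divisor k F₂} (hA : N.Off A₁ A₂)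
    (h₁ : 2 * (genusR k F₁ : ℤ) - 1 + Fintype.card σ₁ ≤ Divisor.degree A₁)
    (h₂ : 2 * (genusR k F₂ : ℤ) - 1 + Fintype.card σ₂ ≤ Divisor.degree A₂) :
    (Module.finrank k ↥(s33nL N A₁ A₂) : ℤ) =
      Divisor.degree A₁ + Divisor.degree A₂ + 1 - s33nPa N := by
  have := finiteDimensional_riemannRochSpace hx₁ A₁
  have := finiteDimensional_riemannRochSpace hx₂ A₂
  have h1 := s33n_finrank_comap_eq (s33nPsi hx₁ hx₂ N hA)
    (s33nPsi_surjective hx₁ hx₂ N hA h₁ h₂) (Subalgebra.toSubmodule N.Δ)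
  rw [← (s33nLEquiv hx₁ hx₂ N hA).finrank_eq, Module.finrank_prod, Module.finrank_pi,
    Fintype.card_sum] at h1
  have hc₁ : (0 : ℤ) ≤ Fintype.card σ₁ := Int.natCast_nonneg _
  have hc₂ : (0 : ℤ) ≤ Fintype.card σ₂ := Int.natCast_nonneg _
  have h2 := alpk_ell_eq hx₁ (A := A₁) (by omega)
  have h3 := alpk_ell_eq hx₂ (A := A₂) (by omega)
  have h4 : Module.finrank k ↥(riemannRochSpace A₁) = ell A₁ := rfl
  have h5 : Module.finrank k ↥(riemannRochSpace A₂) = ell A₂ := rfl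
  have h6 : Module.finrank k ↥(Subalgebra.toSubmodule N.Δ) = Module.finrank k ↥N.Δ := rfl
  rw [s33nPa, s33nDelta]
  rw [h4, h5, h6] at h1
  have h1' : (Module.finrank k ↥(s33nL N A₁ A₂) : ℤ) + ((Fintype.card σ₁ : ℤ) + Fintype.card σ₂) =
      (ell A₁ : ℤ) + ell A₂ + Module.finrank k ↥N.Δ := by
    exact_mod_cast h1
  omega

include hx₁ hx₂ in
/-- sections vanishing at all node places -/
theorem s33n_mem_sub_sig_iff₂ {A₁ : Divisor k F₁} {A₂ : Divisor k F₂} (hA : N.Off A₁ A₂)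
    {t : F₁ × F₂} :
    (t.1 ∈ riemannRochSpace (A₁ - s33nSig₁ N) ∧ t.2 ∈ riemannRochSpace (A₂ - s33nSig₂ N)) ↔
      t.1 ∈ riemannRochSpace A₁ ∧ t.2 ∈ riemannRochSpace A₂ ∧ s33nEv N t = 0 := by
  have hle₁ : riemannRochSpace (A₁ - s33nSig₁ N) ≤ riemannRochSpace A₁ := by
    have := s33n_sub_sig_le N.P₁ N.inj₁ A₁ 1
    rwa [one_smul] at this
  have hle₂ : riemannRochSpace (A₂ - s33nSig₂ N) ≤ riemannRochSpace A₂ := by
    have := s33n_sub_sig_le N.P₂ N.inj₂ A₂ 1
    rwa [one_smul] at this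
  constructor
  · rintro ⟨h1, h2⟩
    refine ⟨hle₁ h1, hle₂ h2, ?_⟩
    have h1' := (s33n_mem_sub_sig_iff N.P₁ N.inj₁ hA.1 (hle₁ h1) 1).mp
      (by rw [one_smul]; exact h1)
    have h2' := (s33n_mem_sub_sig_iff N.P₂ N.inj₂ hA.2 (hle₂ h2) 1).mp
      (by rw [one_smul]; exact h2)
    funext s
    rcases s with s | s
    · exact (s33nVal_eq_zero_iff (s33n_hasVal_of_mem_space hx₁ N.P₁ hA.1 (hle₁ h1) s)).mpr
        (by exact_mod_cast h1' s)
    · exact (s33nVal_eq_zero_iff (s33n_hasVal_of_mem_space hx₂ N.P₂ hA.2 (hle₂ h2) s)).mpr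
        (by exact_mod_cast h2' s)
  · rintro ⟨h1, h2, h3⟩
    constructor
    · have := (s33n_mem_sub_sig_iff N.P₁ N.inj₁ hA.1 h1 1).mpr (fun s => by
        have h := congrFun h3 (Sum.inl s)
        rw [s33nEv_inl, Pi.zero_apply] at h
        exact_mod_cast (s33nVal_eq_zero_iff (s33n_hasVal_of_mem_space hx₁ N.P₁ hA.1 h1 s)).mp h)
      rwa [one_smul] at this
    · have := (s33n_mem_sub_sig_iff N.P₂ N.inj₂ hA.2 h2 1).mpr (fun s => by
        have h := congrFun h3 (Sum.inr s)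
        rw [s33nEv_inr, Pi.zero_apply] at h
        exact_mod_cast (s33nVal_eq_zero_iff (s33n_hasVal_of_mem_space hx₂ N.P₂ hA.2 h2 s)).mp h)
      rwa [one_smul] at this

include hx₁ hx₂ in
/-- sections vanishing at all node places lie in `L^nod` -/
theorem s33n_mem_of_mem_sub_sig {A₁ : Divisor k F₁} {A₂ : Divisor k F₂} (hA : N.Off A₁ A₂)
    {t : F₁ × F₂} (h1 : t.1 ∈ riemannRochSpace (A₁ - s33nSig₁ N))
    (h2 : t.2 ∈ riemannRochSpace (A₂ - s33nSig₂ N)) : t ∈ s33nL N A₁ A₂ := by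
  obtain ⟨h1', h2', h3⟩ := (s33n_mem_sub_sig_iff₂ hx₁ hx₂ N hA).mp ⟨h1, h2⟩
  rw [mem_s33nL_of_off N hx₁ hx₂ hA]
  refine ⟨h1', h2', ?_⟩
  rw [h3]
  exact N.Δ.zero_mem

end Two

end Fermat.Agent.S33N
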