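/-
GAMMA / KM-NOD (helper3), part (N2): **products of nodal Riemann-Roch spaces**.

`s33n_mul_eq : L^nod(A) · L^nod(B) = L^nod(A + B)` for divisors off the nodes with
`deg Aᵢ ≥ 4gᵢ + 2|σᵢ|`, `deg Bᵢ ≥ 2gᵢ + |σᵢ|` (any gluing algebra `Δ`).

Proof: for `t ∈ L^nod(A + B)` choose `u ∈ L^nod(A)` with the values of `t` at the nodes and
`v ∈ L^nod(B)` with all values `1`; then `t - u v` vanishes at the nodes, and on each component
`L(A - Σ) · v + L(A - Σ) · L(B - Σ) = L(A + B - Σ)` (smooth Khuri-Makdisi + a dimension count).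
-/
import Mathlib
import Fermat.Agent.Lib.S33.Nod.Dim
import Fermat.Agent.Lib.Alpha.KM.Product

set_option autoImplicit false
set_option linter.unusedSectionVars false

namespace Fermat.Agent.S33N

open Fermat.Agent.Curve Fermat.Agent.CurveP AlgebraicCurve PlaceAux RRAux Fermat.Agent.Alpha

/-! ### one component -/

section One

variable {k F σ : Type*} [Field k] [IsAlgClosed k] [Field F] [Algebra k F] [Fintype σ]
  {x : F} (hx : IsFunctionFieldGen k F x)
  [Algebra.IsSeparable (IntermediateField.adjoin k {x}) F]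
  (P : σ → Place k F) (hP : Function.Injective P)

/-- a function with a nonzero value is a unit at the place -/
theorem s33n_ord_eq_zero_of_val_ne_zero {v : Place k F} {f : F} (hf : S33nHasVal v f)
    (h : s33nVal v f ≠ 0) : f ≠ 0 ∧ v.ord f = 0 := by
  have hf0 : f ≠ 0 := by
    rintro rfl
    exact h (s33nVal_zero v)
  refine ⟨hf0, ?_⟩
  have h1 : 0 ≤ v.ord f := ord_nonneg_of_mem v hf.mem
  have h2 : ¬ (1 ≤ v.ord f) := by
    intro h2
    exact h ((s33nVal_eq_zero_iff hf).mpr ((ordGE_iff v).mpr (Or.inr h2)))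
  omega

/-- dividing by a function with a nonzero value -/
theorem s33n_ordGE_of_mul {v : Place k F} {f a : F} (hf : S33nHasVal v f)
    (h : s33nVal v f ≠ 0) {m : ℤ} (ha : OrdGE v (a * f) m) : OrdGE v a m := by
  obtain ⟨hf0, hord⟩ := s33n_ord_eq_zero_of_val_ne_zero hf h
  rcases (ordGE_iff v).mp ha with h0 | h0
  · rcases mul_eq_zero.mp h0 with h0 | h0
    · rw [h0]; exact ordGE_zero v m
    · exact absurd h0 hf0
  · by_cases ha0 : a = 0
    · rw [ha0]; exact ordGE_zero v m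
    · rw [ordGE_iff]
      right
      rw [v.ord_mul ha0 hf0, hord, add_zero] at h0
      exact h0

include hx hP in
/-- **the one-component step**: `L(A + B - Σ) = L(A - Σ) · v + L(A - Σ) · L(B - Σ)` for `v ∈ L(B)`
with nonzero values at `Σ`. -/
theorem s33n_mul_one_comp {A B : Divisor k F} (hA : ∀ s, A (P s) = 0) (hB : ∀ s, B (P s) = 0)
    (hAdeg : 4 * (genusR k F : ℤ) + 2 * Fintype.card σ ≤ Divisor.degree A)
    (hBdeg : 2 * (genusR k F : ℤ) + Fintype.card σ ≤ Divisor.degree B)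
    {v : F} (hv : v ∈ riemannRochSpace B) (hval : ∀ s, s33nVal (P s) v ≠ 0) :
    riemannRochSpace (A + B - s33nSigOf P) ≤
      (riemannRochSpace (A - s33nSigOf P)).map (LinearMap.mulRight k v) ⊔
        riemannRochSpace (A - s33nSigOf P) * riemannRochSpace (B - s33nSigOf P) := by
  have hg0 : (0 : ℤ) ≤ genusR k F := Int.natCast_nonneg _
  have hc0 : (0 : ℤ) ≤ Fintype.card σ := Int.natCast_nonneg _
  have hSdeg : Divisor.degree (s33nSigOf P) = (Fintype.card σ : ℤ) := s33n_degree_sigOf hx P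
  have hS0 : 0 ≤ s33nSigOf P := s33nSigOf_nonneg P hP
  -- the smooth product theorem
  have hmul : riemannRochSpace (A - s33nSigOf P) * riemannRochSpace (B - s33nSigOf P) =
      riemannRochSpace (A + B - 2 • s33nSigOf P) := by
    have := alpk_mul_eq hx (A := A - s33nSigOf P) (B := B - s33nSigOf P)
      (by rw [map_sub, hSdeg]; omega) (by rw [map_sub, hSdeg]; omega)
    rw [this]
    congr 1
    rw [two_smul]
    abel
  rw [hmul]
  rcases isEmpty_or_nonempty σ with hσ | hσ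
  · -- no nodes
    have h0 : s33nSigOf P = 0 := by
      rw [s33nSigOf, Finset.univ_eq_empty, Finset.sum_empty]
    rw [h0, smul_zero, sub_zero, sub_zero]
    exact le_sup_right
  obtain ⟨s₀⟩ := hσ
  have hv0 : v ≠ 0 :=
    (s33n_ord_eq_zero_of_val_ne_zero (s33n_hasVal_of_mem_space hx P hB hv s₀) (hval s₀)).1
  have hAB : ∀ s, (A + B) (P s) = 0 := fun s => by rw [Finsupp.add_apply, hA s, hB s, add_zero]
  set X := (riemannRochSpace (A - s33nSigOf P)).map (LinearMap.mulRight k v) with hX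
  set Y := riemannRochSpace (A + B - 2 • s33nSigOf P) with hY
  set Z := riemannRochSpace (A + B - s33nSigOf P) with hZ
  have hfdZ : FiniteDimensional k ↥Z := finiteDimensional_riemannRochSpace hx _
  have hfdY : FiniteDimensional k ↥Y := finiteDimensional_riemannRochSpace hx _
  have hfdW : FiniteDimensional k ↥(riemannRochSpace (A - s33nSigOf P)) :=
    finiteDimensional_riemannRochSpace hx _
  have hfdX : FiniteDimensional k ↥X := by
    rw [hX]; infer_instance
  have hinj : Function.Injective (LinearMap.mulRight k v) := fun a b hab =>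
    mul_right_cancel₀ hv0 hab
  -- `X ≤ Z`
  have hXZ : X ≤ Z := by
    rintro _ ⟨a, ha, rfl⟩
    rw [LinearMap.mulRight_apply]
    have := mul_mem_riemannRochSpace ha hv
    rwa [show A - s33nSigOf P + B = A + B - s33nSigOf P by abel] at this
  -- `Y ≤ Z`
  have hYZ : Y ≤ Z := by
    apply riemannRochSpace_mono
    rw [two_smul]
    have : A + B - (s33nSigOf P + s33nSigOf P) = A + B - s33nSigOf P - s33nSigOf P := by abel
    rw [this]
    exact sub_le_self _ hS0
  -- the intersection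
  have hXY : X ⊓ Y ≤ (riemannRochSpace (A - 2 • s33nSigOf P)).map (LinearMap.mulRight k v) := by
    rintro f ⟨⟨a, ha, rfl⟩, hfY⟩
    refine ⟨a, ?_, rfl⟩
    have haA : a ∈ riemannRochSpace A := by
      have := s33n_sub_sig_le P hP A 1
      rw [one_smul] at this
      exact this ha
    apply (s33n_mem_sub_sig_iff P hP hA haA 2).mpr
    intro s
    have hfZ : a * v ∈ riemannRochSpace (A + B) := mul_mem_riemannRochSpace haA hv
    have h2 := (s33n_mem_sub_sig_iff P hP hAB hfZ 2).mp hfY s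
    exact s33n_ordGE_of_mul (s33n_hasVal_of_mem_space hx P hB hv s) (hval s) h2
  -- dimensions
  have hdimX : Module.finrank k ↥X = ell (A - s33nSigOf P) :=
    (Submodule.equivMapOfInjective _ hinj _).finrank_eq.symm
  have hdimI : Module.finrank k ↥(X ⊓ Y) ≤ ell (A - 2 • s33nSigOf P) := by
    have hfd : FiniteDimensional k ↥(riemannRochSpace (A - 2 • s33nSigOf P)) :=
      finiteDimensional_riemannRochSpace hx _
    have h1 := Submodule.finrank_mono hXY
    have h2 : Module.finrank k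
        ↥((riemannRochSpace (A - 2 • s33nSigOf P)).map (LinearMap.mulRight k v)) =
        ell (A - 2 • s33nSigOf P) :=
      (Submodule.equivMapOfInjective _ hinj _).finrank_eq.symm
    omega
  have hsum := Submodule.finrank_sup_add_finrank_inf_eq X Y
  have e1 := alpk_ell_eq hx (A := A - s33nSigOf P) (by rw [map_sub, hSdeg]; omega)
  have e2 := alpk_ell_eq hx (A := A - 2 • s33nSigOf P) (by
    rw [map_sub, map_nsmul, hSdeg]; simp only [nsmul_eq_mul]; push_cast; omega)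
  have e3 := alpk_ell_eq hx (A := A + B - 2 • s33nSigOf P) (by
    rw [map_sub, map_add, map_nsmul, hSdeg]; simp only [nsmul_eq_mul]; push_cast; omega)
  have e4 := alpk_ell_eq hx (A := A + B - s33nSigOf P) (by
    rw [map_sub, map_add, hSdeg]; omega)
  rw [map_sub, hSdeg] at e1
  rw [map_sub, map_nsmul, hSdeg] at e2
  rw [map_sub, map_add, map_nsmul, hSdeg] at e3
  rw [map_sub, map_add, hSdeg] at e4
  simp only [nsmul_eq_mul] at e2 e3
  push_cast at e2 e3
  have hdimY : Module.finrank k ↥Y = ell (A + B - 2 • s33nSigOf P) := rfl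
  have hdimZ : Module.finrank k ↥Z = ell (A + B - s33nSigOf P) := rfl
  have hle : X ⊔ Y ≤ Z := sup_le hXZ hYZ
  have hfin : Module.finrank k ↥Z ≤ Module.finrank k ↥(X ⊔ Y) := by
    have hsum' : (Module.finrank k ↥(X ⊔ Y) : ℤ) + Module.finrank k ↥(X ⊓ Y) =
        Module.finrank k ↥X + Module.finrank k ↥Y := by exact_mod_cast hsum
    have hdimI' : (Module.finrank k ↥(X ⊓ Y) : ℤ) ≤ ell (A - 2 • s33nSigOf P) := by
      exact_mod_cast hdimI
    rw [hdimX, hdimY] at hsum'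
    have : (Module.finrank k ↥Z : ℤ) ≤ Module.finrank k ↥(X ⊔ Y) := by
      rw [hdimZ]
      omega
    exact_mod_cast this
  exact (Submodule.eq_of_le_of_finrank_le hle hfin).ge

end One

/-! ### two components -/

section Two

variable {k F₁ F₂ σ₁ σ₂ : Type*} [Field k] [IsAlgClosed k] [Field F₁] [Field F₂] [Algebra k F₁]
  [Algebra k F₂] [Fintype σ₁] [Fintype σ₂]
  {x₁ : F₁} {x₂ : F₂} (hx₁ : IsFunctionFieldGen k F₁ x₁) (hx₂ : IsFunctionFieldGen k F₂ x₂)
  [Algebra.IsSeparable (IntermediateField.adjoin k {x₁}) F₁]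
  [Algebra.IsSeparable (IntermediateField.adjoin k {x₂}) F₂]
  (N : S33nDatum k F₁ F₂ σ₁ σ₂)

include hx₁ hx₂ in
/-- products of sections vanishing at the nodes, first component -/
theorem s33n_inl_mem_mul {A₁ B₁ : Divisor k F₁} {A₂ B₂ : Divisor k F₂} (hA : N.Off A₁ A₂)
    (hB : N.Off B₁ B₂) {y : F₁}
    (hy : y ∈ riemannRochSpace (A₁ - s33nSig₁ N) * riemannRochSpace (B₁ - s33nSig₁ N)) :
    ((y, 0) : F₁ × F₂) ∈ s33nL N A₁ A₂ * s33nL N B₁ B₂ := by
  refine Submodule.mul_induction_on hy ?_ ?_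
  · intro m hm n hn
    have h1 : ((m, 0) : F₁ × F₂) ∈ s33nL N A₁ A₂ :=
      s33n_mem_of_mem_sub_sig hx₁ hx₂ N hA hm (Submodule.zero_mem _)
    have h2 : ((n, 0) : F₁ × F₂) ∈ s33nL N B₁ B₂ :=
      s33n_mem_of_mem_sub_sig hx₁ hx₂ N hB hn (Submodule.zero_mem _)
    have := Submodule.mul_mem_mul h1 h2
    rwa [Prod.mk_mul_mk, mul_zero] at this
  · intro a b ha hb
    have := Submodule.add_mem _ ha hb
    rwa [Prod.mk_add_mk, add_zero] at this

include hx₁ hx₂ in
/-- products of sections vanishing at the nodes, second component -/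
theorem s33n_inr_mem_mul {A₁ B₁ : Divisor k F₁} {A₂ B₂ : Divisor k F₂} (hA : N.Off A₁ A₂)
    (hB : N.Off B₁ B₂) {y : F₂}
    (hy : y ∈ riemannRochSpace (A₂ - s33nSig₂ N) * riemannRochSpace (B₂ - s33nSig₂ N)) :
    ((0, y) : F₁ × F₂) ∈ s33nL N A₁ A₂ * s33nL N B₁ B₂ := by
  refine Submodule.mul_induction_on hy ?_ ?_
  · intro m hm n hn
    have h1 : ((0, m) : F₁ × F₂) ∈ s33nL N A₁ A₂ :=
      s33n_mem_of_mem_sub_sig hx₁ hx₂ N hA (Submodule.zero_mem _) hm
    have h2 : ((0, n) : F₁ × F₂) ∈ s33nL N B₁ B₂ :=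
      s33n_mem_of_mem_sub_sig hx₁ hx₂ N hB (Submodule.zero_mem _) hn
    have := Submodule.mul_mem_mul h1 h2
    rwa [Prod.mk_mul_mk, mul_zero] at this
  · intro a b ha hb
    have := Submodule.add_mem _ ha hb
    rwa [Prod.mk_add_mk, add_zero] at this

include hx₁ hx₂ in
/-- **(N2)**: the product theorem for the nodal Riemann-Roch spaces. -/
theorem s33n_mul_eq {A₁ B₁ : Divisor k F₁} {A₂ B₂ : Divisor k F₂} (hA : N.Off A₁ A₂)
    (hB : N.Off B₁ B₂)
    (hA₁ : 4 * (genusR k F₁ : ℤ) + 2 * Fintype.card σ₁ ≤ Divisor.degree A₁)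
    (hA₂ : 4 * (genusR k F₂ : ℤ) + 2 * Fintype.card σ₂ ≤ Divisor.degree A₂)
    (hB₁ : 2 * (genusR k F₁ : ℤ) + Fintype.card σ₁ ≤ Divisor.degree B₁)
    (hB₂ : 2 * (genusR k F₂ : ℤ) + Fintype.card σ₂ ≤ Divisor.degree B₂) :
    s33nL N A₁ A₂ * s33nL N B₁ B₂ = s33nL N (A₁ + B₁) (A₂ + B₂) := by
  have hg₁ : (0 : ℤ) ≤ genusR k F₁ := Int.natCast_nonneg _
  have hg₂ : (0 : ℤ) ≤ genusR k F₂ := Int.natCast_nonneg _
  have hc₁ : (0 : ℤ) ≤ Fintype.card σ₁ := Int.natCast_nonneg _
  have hc₂ : (0 : ℤ) ≤ Fintype.card σ₂ := Int.natCast_nonneg _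
  apply le_antisymm (s33n_mul_le N A₁ B₁ A₂ B₂)
  intro t ht
  have hAB := hA.add N hB
  obtain ⟨ht1, ht2, htr, hte⟩ := ht
  -- `u` with the values of `t`, `v` with the values `1`
  obtain ⟨u, hu, hue⟩ := s33n_exists_mem_ev hx₁ hx₂ N hA (by omega) (by omega) hte
  obtain ⟨v, hv, hve⟩ := s33n_exists_mem_ev hx₁ hx₂ N hB (by omega) (by omega) N.Δ.one_mem
  have huv : u * v ∈ s33nL N (A₁ + B₁) (A₂ + B₂) := s33n_mul_mem N hu hv
  have huvM : u * v ∈ s33nL N A₁ A₂ * s33nL N B₁ B₂ := Submodule.mul_mem_mul hu hv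
  -- the difference vanishes at the nodes
  set r := t - u * v with hr
  have hrmem : r ∈ s33nL N (A₁ + B₁) (A₂ + B₂) :=
    Submodule.sub_mem _ ⟨ht1, ht2, htr, hte⟩ huv
  have hrev : s33nEv N r = 0 := by
    have h1 : s33nEv N t = s33nEv N r + s33nEv N (u * v) := by
      rw [← s33nEv_add N hrmem.2.2.1 huv.2.2.1, hr, sub_add_cancel]
    rw [s33nEv_mul N hu.2.2.1 hv.2.2.1, hue, hve, mul_one] at h1
    exact (add_eq_right.mp h1.symm)
  obtain ⟨hr1, hr2⟩ := (s33n_mem_sub_sig_iff₂ hx₁ hx₂ N hAB).mpr ⟨hrmem.1, hrmem.2.1, hrev⟩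
  -- the two components of `r`
  have hval₁ : ∀ s, s33nVal (N.P₁ s) v.1 ≠ 0 := fun s => by
    have := congrFun hve (Sum.inl s)
    rw [s33nEv_inl, Pi.one_apply] at this
    rw [this]; exact one_ne_zero
  have hval₂ : ∀ s, s33nVal (N.P₂ s) v.2 ≠ 0 := fun s => by
    have := congrFun hve (Sum.inr s)
    rw [s33nEv_inr, Pi.one_apply] at this
    rw [this]; exact one_ne_zero
  have hM1 : ((r.1, 0) : F₁ × F₂) ∈ s33nL N A₁ A₂ * s33nL N B₁ B₂ := by
    have h := s33n_mul_one_comp hx₁ N.P₁ N.inj₁ hA.1 hB.1 hA₁ hB₁ hv.1 hval₁ hr1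
    obtain ⟨f, ⟨a, ha, rfl⟩, y, hy, hfy⟩ := Submodule.mem_sup.mp h
    rw [LinearMap.mulRight_apply] at hfy
    have h1 : ((a, 0) : F₁ × F₂) ∈ s33nL N A₁ A₂ :=
      s33n_mem_of_mem_sub_sig hx₁ hx₂ N hA ha (Submodule.zero_mem _)
    have h2 := Submodule.mul_mem_mul h1 hv
    have h3 := s33n_inl_mem_mul hx₁ hx₂ N hA hB hy
    have h4 := Submodule.add_mem _ h2 h3
    have h5 : ((a, 0) : F₁ × F₂) * v + (y, 0) = (r.1, 0) := by
      apply Prod.ext
      · simp only [Prod.fst_add, Prod.fst_mul]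
        exact hfy
      · simp only [Prod.snd_add, Prod.snd_mul, zero_mul, add_zero]
    rwa [h5] at h4
  have hM2 : ((0, r.2) : F₁ × F₂) ∈ s33nL N A₁ A₂ * s33nL N B₁ B₂ := by
    have h := s33n_mul_one_comp hx₂ N.P₂ N.inj₂ hA.2 hB.2 hA₂ hB₂ hv.2.1 hval₂ hr2
    obtain ⟨f, ⟨a, ha, rfl⟩, y, hy, hfy⟩ := Submodule.mem_sup.mp h
    rw [LinearMap.mulRight_apply] at hfy
    have h1 : ((0, a) : F₁ × F₂) ∈ s33nL N A₁ A₂ :=
      s33n_mem_of_mem_sub_sig hx₁ hx₂ N hA (Submodule.zero_mem _) ha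
    have h2 := Submodule.mul_mem_mul h1 hv
    have h3 := s33n_inr_mem_mul hx₁ hx₂ N hA hB hy
    have h4 := Submodule.add_mem _ h2 h3
    have h5 : ((0, a) : F₁ × F₂) * v + (0, y) = (0, r.2) := by
      apply Prod.ext
      · simp only [Prod.fst_add, Prod.fst_mul, zero_mul, add_zero]
      · simp only [Prod.snd_add, Prod.snd_mul]
        exact hfy
    rwa [h5] at h4
  have hsum : t = u * v + ((r.1, 0) + (0, r.2)) := by
    have : ((r.1, 0) : F₁ × F₂) + (0, r.2) = r := by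
      apply Prod.ext
      · simp
      · simp
    rw [this, hr]
    ring
  rw [hsum]
  exact Submodule.add_mem _ huvM (Submodule.add_mem _ hM1 hM2)

end Two

end Fermat.Agent.S33N
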