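/-
GAMMA / KM-NOD (helper3), parts (N3) and (U): **colon spaces and units**.

* `s33n_colon`  : (N3) `{h | h · L^nod(A) ⊆ L^nod(B)} = L^nod(B - A)` for `deg Aᵢ ≥ 2gᵢ + |σᵢ|`
  (divisors off the nodes, any gluing algebra);
* `s33n_homker` : if moreover `L^nod(B - A)` is a line and `B - A ≥ 0`, the colon space is `k · 1`;
* `s33n_exists_unit` : (U) on a CONNECTED nodal curve (`(c₁ on σ₁, c₂ on σ₂) ∈ Δ ⇒ c₁ = c₂`) every
  spanning family of `L^nod(A)` (`deg Aᵢ ≥ 2gᵢ - 1 + |σᵢ|`) contains a unit of `F₁ × F₂`.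
-/
import Mathlib
import Fermat.Agent.Lib.S33.Nod.Mul
import Fermat.Agent.Lib.Alpha.KM.Pencil

set_option autoImplicit false
set_option linter.unusedSectionVars false

namespace Fermat.Agent.S33N

open Fermat.Agent.Curve Fermat.Agent.CurveP AlgebraicCurve PlaceAux RRAux Fermat.Agent.Alpha

/-! ### one component -/

section One

variable {k F σ : Type*} [Field k] [IsAlgClosed k] [Field F] [Algebra k F] [Fintype σ]
  {x : F} (hx : IsFunctionFieldGen k F x)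
  [Algebra.IsSeparable (IntermediateField.adjoin k {x}) F]
  (P : σ → Place k F) (hP : Function.Injective P)

include hx hP in
/-- **the one-component colon step**: if `h · L(A - Σ) ⊆ L(B)` and `h` is regular at `Σ`, then
`h ∈ L(B - A)`. -/
theorem s33n_colon_one_comp {A B : Divisor k F} (hA : ∀ s, A (P s) = 0) (hB : ∀ s, B (P s) = 0)
    (hAdeg : 2 * (genusR k F : ℤ) + Fintype.card σ ≤ Divisor.degree A) {h : F}
    (hh : ∀ a ∈ riemannRochSpace (A - s33nSigOf P), h * a ∈ riemannRochSpace B)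
    (hreg : ∀ s, OrdGE (P s) h 0) : h ∈ riemannRochSpace (B - A) := by
  have hSdeg : Divisor.degree (s33nSigOf P) = (Fintype.card σ : ℤ) := s33n_degree_sigOf hx P
  have h1 : h ∈ riemannRochSpace (B - (A - s33nSigOf P)) :=
    (alpk_colon hx (B := A - s33nSigOf P) (C := B) (by rw [map_sub, hSdeg]; omega) h).mp hh
  rw [mem_riemannRochSpace_iff_ordGE] at h1 ⊢
  intro v
  by_cases hv : v ∈ Set.range P
  · obtain ⟨s, rfl⟩ := hv
    rw [Finsupp.sub_apply, hA s, hB s, sub_zero, neg_zero]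
    exact hreg s
  · have := h1 v
    rwa [Finsupp.sub_apply, Finsupp.sub_apply, s33nSigOf_apply_of_notMem P hv, sub_zero,
      ← Finsupp.sub_apply] at this

end One

/-! ### two components -/

section Two

variable {k F₁ F₂ σ₁ σ₂ : Type*} [Field k] [IsAlgClosed k] [Field F₁] [Field F₂] [Algebra k F₁]
  [Algebra k F₂] [Fintype σ₁] [Fintype σ₂]
  {x₁ : F₁} {x₂ : F₂} (hx₁ : IsFunctionFieldGen k F₁ x₁) (hx₂ : IsFunctionFieldGen k F₂ x₂)
  [Algebra.IsSeparable (IntermediateField.adjoin k {x₁}) F₁]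
  [Algebra.IsSeparable (IntermediateField.adjoin k {x₂}) F₂]
  (N : S33nDatum k F₁ F₂ σ₁ σ₂)

include hx₁ hx₂ in
/-- **(N3)**: the colon theorem for the nodal Riemann-Roch spaces. -/
theorem s33n_colon {A₁ B₁ : Divisor k F₁} {A₂ B₂ : Divisor k F₂} (hA : N.Off A₁ A₂)
    (hB : N.Off B₁ B₂)
    (hA₁ : 2 * (genusR k F₁ : ℤ) + Fintype.card σ₁ ≤ Divisor.degree A₁)
    (hA₂ : 2 * (genusR k F₂ : ℤ) + Fintype.card σ₂ ≤ Divisor.degree A₂) (h : F₁ × F₂) :
    (∀ t ∈ s33nL N A₁ A₂, h * t ∈ s33nL N B₁ B₂) ↔ h ∈ s33nL N (B₁ - A₁) (B₂ - A₂) := by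
  have hBA := hB.sub N hA
  constructor
  · intro hh
    -- a section with all values `1`
    obtain ⟨s, hs, hse⟩ := s33n_exists_mem_ev hx₁ hx₂ N hA (by omega) (by omega) N.Δ.one_mem
    have hhs := hh s hs
    have hval₁ : ∀ i, s33nVal (N.P₁ i) s.1 ≠ 0 := fun i => by
      have := congrFun hse (Sum.inl i)
      rw [s33nEv_inl, Pi.one_apply] at this
      rw [this]; exact one_ne_zero
    have hval₂ : ∀ i, s33nVal (N.P₂ i) s.2 ≠ 0 := fun i => by
      have := congrFun hse (Sum.inr i)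
      rw [s33nEv_inr, Pi.one_apply] at this
      rw [this]; exact one_ne_zero
    -- `h` is regular at the nodes
    have hreg₁ : ∀ i, OrdGE (N.P₁ i) h.1 0 := fun i => by
      have h1 : OrdGE (N.P₁ i) (h.1 * s.1) 0 :=
        (ordGE_zero_iff_mem _).mpr (hhs.2.2.1.1 i).mem
      exact s33n_ordGE_of_mul (hs.2.2.1.1 i) (hval₁ i) h1
    have hreg₂ : ∀ i, OrdGE (N.P₂ i) h.2 0 := fun i => by
      have h1 : OrdGE (N.P₂ i) (h.2 * s.2) 0 :=
        (ordGE_zero_iff_mem _).mpr (hhs.2.2.1.2 i).mem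
      exact s33n_ordGE_of_mul (hs.2.2.1.2 i) (hval₂ i) h1
    have hh₁ : h.1 ∈ riemannRochSpace (B₁ - A₁) := by
      refine s33n_colon_one_comp hx₁ N.P₁ N.inj₁ hA.1 hB.1 hA₁ (fun a ha => ?_) hreg₁
      have h1 : ((a, 0) : F₁ × F₂) ∈ s33nL N A₁ A₂ :=
        s33n_mem_of_mem_sub_sig hx₁ hx₂ N hA ha (Submodule.zero_mem _)
      exact (hh _ h1).1
    have hh₂ : h.2 ∈ riemannRochSpace (B₂ - A₂) := by
      refine s33n_colon_one_comp hx₂ N.P₂ N.inj₂ hA.2 hB.2 hA₂ (fun a ha => ?_) hreg₂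
      have h1 : ((0, a) : F₁ × F₂) ∈ s33nL N A₁ A₂ :=
        s33n_mem_of_mem_sub_sig hx₁ hx₂ N hA (Submodule.zero_mem _) ha
      exact (hh _ h1).2.1
    have hhreg : S33nReg N h :=
      ⟨fun i => s33n_hasVal_of_mem hx₁ ((ordGE_zero_iff_mem _).mp (hreg₁ i)),
        fun i => s33n_hasVal_of_mem hx₂ ((ordGE_zero_iff_mem _).mp (hreg₂ i))⟩
    refine ⟨hh₁, hh₂, hhreg, ?_⟩
    have h1 := hhs.2.2.2
    rwa [s33nEv_mul N hhreg hs.2.2.1, hse, mul_one] at h1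
  · intro hh t ht
    have := s33n_mul_mem N hh ht
    rwa [sub_add_cancel, sub_add_cancel] at this

include hx₁ hx₂ in
/-- the Hom-kernel space is the line of constants, if `L^nod(B - A)` is a line containing `1` -/
theorem s33n_homker {A₁ B₁ : Divisor k F₁} {A₂ B₂ : Divisor k F₂} (hA : N.Off A₁ A₂)
    (hB : N.Off B₁ B₂)
    (hA₁ : 2 * (genusR k F₁ : ℤ) + Fintype.card σ₁ ≤ Divisor.degree A₁)
    (hA₂ : 2 * (genusR k F₂ : ℤ) + Fintype.card σ₂ ≤ Divisor.degree A₂)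
    (h0₁ : 0 ≤ B₁ - A₁) (h0₂ : 0 ≤ B₂ - A₂)
    (hline : Module.finrank k ↥(s33nL N (B₁ - A₁) (B₂ - A₂)) = 1) (h : F₁ × F₂)
    (hh : ∀ t ∈ s33nL N A₁ A₂, h * t ∈ s33nL N B₁ B₂) :
    ∃ a : k, h = algebraMap k (F₁ × F₂) a := by
  have hmem := (s33n_colon hx₁ hx₂ N hA hB hA₁ hA₂ h).mp hh
  have h1 : (1 : F₁ × F₂) ∈ s33nL N (B₁ - A₁) (B₂ - A₂) :=
    s33nL_mono N h0₁ h0₂ (s33n_one_mem N)
  have hne : (⟨1, h1⟩ : ↥(s33nL N (B₁ - A₁) (B₂ - A₂))) ≠ 0 := fun h0 =>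
    one_ne_zero (congrArg Subtype.val h0)
  obtain ⟨a, ha⟩ := (finrank_eq_one_iff_of_nonzero' _ hne).mp hline ⟨h, hmem⟩
  refine ⟨a, ?_⟩
  have := congrArg Subtype.val ha
  rw [Algebra.algebraMap_eq_smul_one]
  exact this.symm

include hx₁ hx₂ in
/-- **(U)**: on a connected nodal curve every spanning family of `L^nod(A)` contains a unit. -/
theorem s33n_exists_unit
    (hconn : ∀ c₁ c₂ : k, (Sum.elim (fun _ => c₁) (fun _ => c₂) : σ₁ ⊕ σ₂ → k) ∈ N.Δ → c₁ = c₂)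
    {A₁ : Divisor k F₁} {A₂ : Divisor k F₂} (hA : N.Off A₁ A₂)
    (h₁ : 2 * (genusR k F₁ : ℤ) - 1 + Fintype.card σ₁ ≤ Divisor.degree A₁)
    (h₂ : 2 * (genusR k F₂ : ℤ) - 1 + Fintype.card σ₂ ≤ Divisor.degree A₂)
    {ι : Type*} (f : ι → F₁ × F₂) (hf : Submodule.span k (Set.range f) = s33nL N A₁ A₂) :
    ∃ j, IsUnit (f j) := by
  by_contra hcon
  push Not at hcon
  -- the two subspaces of sections vanishing on a component
  let U₁ : Submodule k (F₁ × F₂) := (s33nL N A₁ A₂) ⊓ (LinearMap.ker (LinearMap.fst k F₁ F₂))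
  let U₂ : Submodule k (F₁ × F₂) := (s33nL N A₁ A₂) ⊓ (LinearMap.ker (LinearMap.snd k F₁ F₂))
  have hfmem : ∀ j, f j ∈ s33nL N A₁ A₂ := fun j => by
    rw [← hf]; exact Submodule.subset_span ⟨j, rfl⟩
  have hle : s33nL N A₁ A₂ ≤ U₁ ⊔ U₂ := by
    rw [← hf, Submodule.span_le]
    rintro _ ⟨j, rfl⟩
    have hj := hcon j
    rw [Prod.isUnit_iff, not_and_or, isUnit_iff_ne_zero, isUnit_iff_ne_zero, not_not,
      not_not] at hj
    rcases hj with hj | hj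
    · exact Submodule.mem_sup_left ⟨hfmem j, hj⟩
    · exact Submodule.mem_sup_right ⟨hfmem j, hj⟩
  obtain ⟨s, hs, hse⟩ := s33n_exists_mem_ev hx₁ hx₂ N hA h₁ h₂ N.Δ.one_mem
  obtain ⟨s', hs', s'', hs'', hsum⟩ := Submodule.mem_sup.mp (hle hs)
  have hs'1 : s'.1 = 0 := hs'.2
  have hs''2 : s''.2 = 0 := hs''.2
  -- the values of `s''`
  have hev : s33nEv N s'' = Sum.elim (fun _ => (1 : k)) (fun _ => (0 : k)) := by
    have h1 : s33nEv N s = s33nEv N s' + s33nEv N s'' := by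
      rw [← s33nEv_add N hs'.1.2.2.1 hs''.1.2.2.1, hsum]
    funext i
    rcases i with i | i
    · have h2 := congrFun h1 (Sum.inl i)
      rw [hse, Pi.one_apply, Pi.add_apply, s33nEv_inl, s33nEv_inl, hs'1, s33nVal_zero,
        zero_add] at h2
      rw [s33nEv_inl, Sum.elim_inl]
      exact h2.symm
    · rw [s33nEv_inr, Sum.elim_inr, hs''2, s33nVal_zero]
  have hmem : (Sum.elim (fun _ => (1 : k)) (fun _ => (0 : k)) : σ₁ ⊕ σ₂ → k) ∈ N.Δ := by
    rw [← hev]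
    exact hs''.1.2.2.2
  exact one_ne_zero (hconn 1 0 hmem)

end Two

end Fermat.Agent.S33N
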